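/-
S35-ALG, backup of (AJ-β) by the Atkin–Lehner route (helper79), part 1: the analytic / group side.

For `ℓ ∤ N` prime and `x ℓ - y N = 1` let `W = [[x ℓ, y], [N ℓ, ℓ]]` (determinant `ℓ`).  `W`
normalises `Γ₀(N ℓ)`, so `{W}` is a one-element correspondence system from `Γ₀(N ℓ)` to itself
in the sense of `S41/H41/CorrSys.lean`; its operator `alOp` is `ψ ↦ ψ ∘ (W · W⁻¹)` on
`Hom(Γ₀(N ℓ), A)`.  On the upper half plane `W` acts as `alH` of `S29/H64/AtkinLehner.lean`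
(`τ ↦ [[x, y], [N, ℓ]] • (ℓ τ)`), hence

* `rootQ_swapRen` : a root datum for `C` with character `ψ` gives the root datum `G ∘ W` for
  `swapRen C` with character `alOp ψ`.
-/
import Mathlib
import Fermat.Agent.S29.H64.AtkinLehner
import Fermat.Agent.S41.H26.ParabolicCorr
import Fermat.Agent.S42.H96.Defs
import Fermat.Agent.S16.H75.PeriodHecke
import Fermat.Agent.S16.H75.Gamma0Hecke

set_option autoImplicit false
set_option linter.unusedSectionVars false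

open UpperHalfPlane CongruenceSubgroup ModularCurve ModularCurve.Period AlgebraicCurve
open scoped MatrixGroups Manifold

noncomputable section

namespace Fermat.Agent.S35.H79

open Fermat.Agent.S24 Fermat.Agent.S16.H75 Fermat.Agent.S41.H41 Fermat.Agent.S42.H96
open Fermat.Agent.S29.H64 (alH swapRen Theta_swapRen mkSL coe_mkSL_smul)

variable (N ℓ : ℕ) [NeZero N] [NeZero ℓ]

/-! ### The Atkin–Lehner matrix -/

/-- The Atkin–Lehner matrix `[[x ℓ, y], [N ℓ, ℓ]]`. -/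
def alMat (x y : ℤ) : Matrix (Fin 2) (Fin 2) ℤ :=
  !![x * (ℓ : ℤ), y; (N : ℤ) * (ℓ : ℤ), (ℓ : ℤ)]

theorem det_alMat (x y : ℤ) (hxy : x * (ℓ : ℤ) - y * (N : ℤ) = 1) :
    (alMat N ℓ x y).det = (ℓ : ℤ) := by
  rw [alMat, Matrix.det_fin_two_of]
  linear_combination (ℓ : ℤ) * hxy

theorem det_alMat_ne_zero (x y : ℤ) (hxy : x * (ℓ : ℤ) - y * (N : ℤ) = 1) :
    (alMat N ℓ x y).det ≠ 0 := by
  rw [det_alMat N ℓ x y hxy]
  exact_mod_cast NeZero.ne ℓ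

/-- The conjugate `W γ W⁻¹` as an integer matrix (`γ = [[a, b], [N ℓ c', d]]`). -/
def alConjMat (x y a b c' d : ℤ) : Matrix (Fin 2) (Fin 2) ℤ :=
  !![x * ℓ * a + y * N * ℓ * c' - N * x * ℓ * b - N * y * d,
     -(x * y * a) - y ^ 2 * N * c' + x ^ 2 * ℓ * b + x * y * d;
     (N : ℤ) * (ℓ : ℤ) * (a + ℓ * c' - N * b - d),
     -(y * N * a) - y * N * ℓ * c' + x * N * ℓ * b + x * ℓ * d]

theorem alMat_mul_eq (x y : ℤ) (hxy : x * (ℓ : ℤ) - y * (N : ℤ) = 1) (a b c' d : ℤ) :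
    alMat N ℓ x y * !![a, b; (N : ℤ) * (ℓ : ℤ) * c', d]
      = alConjMat N ℓ x y a b c' d * alMat N ℓ x y := by
  ext i j
  fin_cases i <;> fin_cases j <;>
    simp only [alMat, alConjMat, Matrix.mul_apply, Fin.sum_univ_two, Matrix.of_apply,
      Matrix.cons_val', Matrix.cons_val_zero, Matrix.cons_val_one, Matrix.empty_val',
      Matrix.cons_val_fin_one, Fin.zero_eta, Fin.mk_one, Fin.isValue]
  · linear_combination (-(x * ℓ * a + y * (N * ℓ * c'))) * hxy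
  · linear_combination (-(x * ℓ * b + y * d)) * hxy
  · linear_combination (-(N * ℓ * a + ℓ * (N * ℓ * c'))) * hxy
  · linear_combination (-(N * ℓ * b + ℓ * d)) * hxy

theorem det_alConjMat (x y : ℤ) (hxy : x * (ℓ : ℤ) - y * (N : ℤ) = 1) (a b c' d : ℤ)
    (hdet : a * d - b * ((N : ℤ) * (ℓ : ℤ) * c') = 1) :
    (alConjMat N ℓ x y a b c' d).det = 1 := by
  have h := congrArg Matrix.det (alMat_mul_eq N ℓ x y hxy a b c' d)
  rw [Matrix.det_mul, Matrix.det_mul, Matrix.det_fin_two_of, hdet] at h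
  have h0 := det_alMat_ne_zero N ℓ x y hxy
  have h' : (alMat N ℓ x y).det * 1 = (alMat N ℓ x y).det * (alConjMat N ℓ x y a b c' d).det := by
    rw [h]; ring
  exact (mul_left_cancel₀ h0 h').symm

/-! ### The one-element correspondence system `{W}` -/

/-- `{W}` is a correspondence system from `Γ₀(N ℓ)` to itself: `W` normalises `Γ₀(N ℓ)`. -/
theorem isCorrSys_al (x y : ℤ) (hxy : x * (ℓ : ℤ) - y * (N : ℤ) = 1) :
    IsCorrSys (Gamma0 (N * ℓ)) (Gamma0 (N * ℓ)) (fun _ : Unit => alMat N ℓ x y) where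
  det_ne _ := det_alMat_ne_zero N ℓ x y hxy
  ex γ _ := by
    have hγ := (mem_Gamma0_iff_dvd (γ : SL(2, ℤ))).1 γ.2
    obtain ⟨c', hc'⟩ : ((N : ℤ) * (ℓ : ℤ)) ∣ mat γ 1 0 := by
      have := hγ; push_cast at this; exact this
    have hdet : mat γ 0 0 * mat γ 1 1 - mat γ 0 1 * ((N : ℤ) * (ℓ : ℤ) * c') = 1 := by
      have := (γ : SL(2, ℤ)).2
      rw [Matrix.det_fin_two] at this
      rw [← hc']
      exact this
    have hmat : mat γ = !![mat γ 0 0, mat γ 0 1; (N : ℤ) * (ℓ : ℤ) * c', mat γ 1 1] := by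
      rw [← hc']
      exact Matrix.eta_fin_two (mat γ)
    refine ⟨(), ⟨⟨alConjMat N ℓ x y (mat γ 0 0) (mat γ 0 1) c' (mat γ 1 1),
      det_alConjMat N ℓ x y hxy _ _ _ _ hdet⟩, ?_⟩, ?_⟩
    · refine (mem_Gamma0_iff_dvd _).2 ⟨mat γ 0 0 + ℓ * c' - N * mat γ 0 1 - mat γ 1 1, ?_⟩
      show alConjMat N ℓ x y (mat γ 0 0) (mat γ 0 1) c' (mat γ 1 1) 1 0 = _
      simp [alConjMat]
    · show alMat N ℓ x y * mat γ
        = alConjMat N ℓ x y (mat γ 0 0) (mat γ 0 1) c' (mat γ 1 1) * alMat N ℓ x y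
      rw [← alMat_mul_eq N ℓ x y hxy, ← hmat]
  uniq _ _ _ _ := rfl

/-! ### The action on the upper half plane -/

/-- `W` as an element of `GL(2, ℝ)`. -/
def alGL (x y : ℤ) (hxy : x * (ℓ : ℤ) - y * (N : ℤ) = 1) : GL (Fin 2) ℝ :=
  Matrix.GeneralLinearGroup.mkOfDetNeZero ((alMat N ℓ x y).map (Int.castRingHom ℝ)) (by
    have h : ((alMat N ℓ x y).map (Int.castRingHom ℝ)).det
        = (Int.castRingHom ℝ) (alMat N ℓ x y).det := (RingHom.map_det _ _).symm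
    rw [h, det_alMat N ℓ x y hxy]
    have : (ℓ : ℝ) ≠ 0 := Nat.cast_ne_zero.mpr (NeZero.ne ℓ)
    simpa using this)

theorem coe_alGL (x y : ℤ) (hxy : x * (ℓ : ℤ) - y * (N : ℤ) = 1) :
    ((alGL N ℓ x y hxy : GL (Fin 2) ℝ) : Matrix (Fin 2) (Fin 2) ℝ)
      = (alMat N ℓ x y).map (Int.castRingHom ℝ) := rfl

theorem det_alGL_pos (x y : ℤ) (hxy : x * (ℓ : ℤ) - y * (N : ℤ) = 1) :
    0 < (alGL N ℓ x y hxy).det.val := by
  rw [Matrix.GeneralLinearGroup.val_det_apply, coe_alGL]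
  have h : ((alMat N ℓ x y).map (Int.castRingHom ℝ)).det
      = (Int.castRingHom ℝ) (alMat N ℓ x y).det := (RingHom.map_det _ _).symm
  rw [h, det_alMat N ℓ x y hxy]
  have : (0 : ℝ) < ℓ := by exact_mod_cast Nat.pos_of_ne_zero (NeZero.ne ℓ)
  simpa using this

/-- `W` acts on the upper half plane as `alH`: `τ ↦ [[x, y], [N, ℓ]] • (ℓ τ)`. -/
theorem alGL_smul (x y : ℤ) (hxy : x * (ℓ : ℤ) - y * (N : ℤ) = 1) (τ : ℍ) :
    alGL N ℓ x y hxy • τ = alH N ℓ x y hxy τ := by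
  apply UpperHalfPlane.ext
  rw [coe_smul_of_det_pos (det_alGL_pos N ℓ x y hxy), alH, coe_mkSL_smul, coe_levelMul, num, denom]
  have h00 : (alGL N ℓ x y hxy : GL (Fin 2) ℝ) 0 0 = (x : ℝ) * (ℓ : ℝ) := by
    show ((alGL N ℓ x y hxy : GL (Fin 2) ℝ) : Matrix (Fin 2) (Fin 2) ℝ) 0 0 = _
    rw [coe_alGL]; simp [alMat]
  have h01 : (alGL N ℓ x y hxy : GL (Fin 2) ℝ) 0 1 = (y : ℝ) := by
    show ((alGL N ℓ x y hxy : GL (Fin 2) ℝ) : Matrix (Fin 2) (Fin 2) ℝ) 0 1 = _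
    rw [coe_alGL]; simp [alMat]
  have h10 : (alGL N ℓ x y hxy : GL (Fin 2) ℝ) 1 0 = (N : ℝ) * (ℓ : ℝ) := by
    show ((alGL N ℓ x y hxy : GL (Fin 2) ℝ) : Matrix (Fin 2) (Fin 2) ℝ) 1 0 = _
    rw [coe_alGL]; simp [alMat]
  have h11 : (alGL N ℓ x y hxy : GL (Fin 2) ℝ) 1 1 = (ℓ : ℝ) := by
    show ((alGL N ℓ x y hxy : GL (Fin 2) ℝ) : Matrix (Fin 2) (Fin 2) ℝ) 1 1 = _
    rw [coe_alGL]; simp [alMat]
  rw [h00, h01, h10, h11]
  push_cast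
  ring

/-- `alH` is holomorphic: composition with it preserves holomorphy. -/
theorem mdiff_comp_alH (x y : ℤ) (hxy : x * (ℓ : ℤ) - y * (N : ℤ) = 1) {G : ℍ → ℂ}
    (hG : MDiff G) : MDiff (fun τ => G (alH N ℓ x y hxy τ)) := by
  have e : (fun τ => G (alH N ℓ x y hxy τ)) = fun τ => G (alGL N ℓ x y hxy • τ) :=
    funext fun τ => by rw [alGL_smul]
  rw [e]
  exact hG.comp (mdifferentiable_smul (det_alGL_pos N ℓ x y hxy))

/-- The equivariance of `alH`: `W (γ τ) = (W γ W⁻¹) (W τ)`. -/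
theorem alH_smul (x y : ℤ) (hxy : x * (ℓ : ℤ) - y * (N : ℤ) = 1) (γ : Gamma0 (N * ℓ)) (τ : ℍ) :
    alH N ℓ x y hxy ((γ : SL(2, ℤ)) • τ)
      = (((isCorrSys_al N ℓ x y hxy).coc γ () : Gamma0 (N * ℓ)) : SL(2, ℤ)) •
          alH N ℓ x y hxy τ := by
  rw [← alGL_smul, ← alGL_smul]
  exact act_rel_of_matrix_rel (gl_rel_of_int_rel (coe_alGL N ℓ x y hxy) (coe_alGL N ℓ x y hxy)
    ((isCorrSys_al N ℓ x y hxy).spec γ ())) τ

/-! ### The root datum -/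

/-- **Root data under Atkin–Lehner**: if `G` is a holomorphic `m`-th root of `Θ(C)` with character
`ζ_m ^ ψ`, then `G ∘ W` is a holomorphic `m`-th root of `Θ(swapRen C)` with character
`ζ_m ^ (ψ ∘ (W · W⁻¹))`. -/
theorem rootQ_swapRen (hℓ : ℓ.Prime) (x y : ℤ) (hxy : x * (ℓ : ℤ) - y * (N : ℤ) = 1) {m : ℕ}
    (ψ : Additive (Gamma0 (N * ℓ)) →+ ZMod m) (C : MvPolynomial ((N * ℓ).divisors) Kbar)
    (h : RootQ (N * ℓ) m ψ C) :
    RootQ (N * ℓ) m ((isCorrSys_al N ℓ x y hxy).corrOp ψ) (swapRen N ℓ C) := by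
  obtain ⟨G, hG, hGp, hGχ⟩ := h
  refine ⟨fun τ => G (alH N ℓ x y hxy τ), mdiff_comp_alH N ℓ x y hxy hG, fun τ => ?_,
    fun γ τ => ?_⟩
  · rw [hGp, Theta_swapRen N ℓ hℓ x y hxy]
  · show G (alH N ℓ x y hxy ((γ : SL(2, ℤ)) • τ)) = _ * G (alH N ℓ x y hxy τ)
    rw [alH_smul, hGχ]
    congr 1
    show zetaP m ^ (ψ (Additive.ofMul ((isCorrSys_al N ℓ x y hxy).coc γ ()))).val
      = zetaP m ^ ((isCorrSys_al N ℓ x y hxy).corrOp ψ (Additive.ofMul γ)).val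
    rw [IsCorrSys.corrOp_apply, Fintype.sum_unique]

/-! ### The canonical Atkin–Lehner operator on `Hom(Γ₀(N ℓ), A)` -/

theorem al_bezout {N ℓ : ℕ} (hℓ : ℓ.Prime) (hℓN : ¬ ℓ ∣ N) :
    Int.gcdA ℓ N * (ℓ : ℤ) - (-Int.gcdB ℓ N) * (N : ℤ) = 1 := by
  have h := Int.gcd_eq_gcd_ab (ℓ : ℤ) (N : ℤ)
  have hcop : Int.gcd (ℓ : ℤ) (N : ℤ) = 1 := by
    rw [Int.gcd_natCast_natCast]
    exact (Nat.Prime.coprime_iff_not_dvd hℓ).mpr hℓN
  rw [hcop] at h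
  have h' : (1 : ℤ) = (ℓ : ℤ) * Int.gcdA ℓ N + (N : ℤ) * Int.gcdB ℓ N := by exact_mod_cast h
  linear_combination -h'

/-- **The Atkin–Lehner operator** `ψ ↦ ψ ∘ (W · W⁻¹)` on `Hom(Γ₀(N ℓ), A)`
(`W = [[x ℓ, y], [N ℓ, ℓ]]` with the Bézout coefficients of `Int.gcdA`, `Int.gcdB`; zero unless
`ℓ` is a prime not dividing `N`). -/
def alOp (N ℓ : ℕ) [NeZero N] [NeZero ℓ] (A : Type*) [AddCommGroup A] :
    (Additive (Gamma0 (N * ℓ)) →+ A) →+ (Additive (Gamma0 (N * ℓ)) →+ A) :=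
  open Classical in
  if h : ℓ.Prime ∧ ¬ ℓ ∣ N then (isCorrSys_al N ℓ _ _ (al_bezout h.1 h.2)).corrOp else 0

theorem alOp_eq (hℓ : ℓ.Prime) (hℓN : ¬ ℓ ∣ N) (A : Type*) [AddCommGroup A] :
    alOp N ℓ A = (isCorrSys_al N ℓ _ _ (al_bezout hℓ hℓN)).corrOp := dif_pos ⟨hℓ, hℓN⟩

/-- Naturality of `alOp` in the coefficient group (e.g. reduction modulo `m`). -/
theorem alOp_comp {A B : Type*} [AddCommGroup A] [AddCommGroup B] (φ : A →+ B)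
    (ψ : Additive (Gamma0 (N * ℓ)) →+ A) : alOp N ℓ B (φ.comp ψ) = φ.comp (alOp N ℓ A ψ) := by
  classical
  by_cases h : ℓ.Prime ∧ ¬ ℓ ∣ N
  · rw [alOp_eq N ℓ h.1 h.2, alOp_eq N ℓ h.1 h.2]
    exact IsCorrSys.corrOp_comp _ φ ψ
  · rw [alOp, alOp, dif_neg h, dif_neg h]
    refine AddMonoidHom.ext fun γ => ?_
    simp

/-- `alOp` preserves parabolic homomorphisms (any coefficient group). -/
theorem isParabolicHom_alOp {A : Type*} [AddCommGroup A] {ψ : Additive (Gamma0 (N * ℓ)) →+ A}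
    (hψ : IsParabolicHom (Gamma0 (N * ℓ)) ψ) :
    IsParabolicHom (Gamma0 (N * ℓ)) (alOp N ℓ A ψ) := by
  classical
  by_cases h : ℓ.Prime ∧ ¬ ℓ ∣ N
  · rw [alOp_eq N ℓ h.1 h.2]
    exact Fermat.Agent.S41.H26.isParabolicHom_corrOp_of_subsingleton _ hψ
  · rw [alOp, dif_neg h]
    exact fun _ _ => rfl

/-- The cocycle of a one-element correspondence system is multiplicative. -/
theorem coc_pow_unit {Γ₁ Γ₂ : Subgroup SL(2, ℤ)} {α : Unit → Matrix (Fin 2) (Fin 2) ℤ}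
    (h : IsCorrSys Γ₁ Γ₂ α) (γ : Γ₁) (n : ℕ) : h.coc (γ ^ n) () = h.coc γ () ^ n := by
  induction n with
  | zero => rw [pow_zero, pow_zero, h.coc_one]
  | succ n ih => rw [pow_succ, pow_succ, h.coc_mul, ih]

/-- `alOp` preserves the homomorphisms which kill the elements of finite order. -/
theorem alOp_apply_eq_zero_of_isOfFinOrder {A : Type*} [AddCommGroup A]
    {ψ : Additive (Gamma0 (N * ℓ)) →+ A}
    (hψ : ∀ γ : Gamma0 (N * ℓ), IsOfFinOrder γ → ψ (Additive.ofMul γ) = 0)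
    (γ : Gamma0 (N * ℓ)) (hγ : IsOfFinOrder γ) : alOp N ℓ A ψ (Additive.ofMul γ) = 0 := by
  classical
  by_cases h : ℓ.Prime ∧ ¬ ℓ ∣ N
  · rw [alOp_eq N ℓ h.1 h.2, IsCorrSys.corrOp_apply, Fintype.sum_unique]
    refine hψ _ ?_
    obtain ⟨n, hn, hγn⟩ := isOfFinOrder_iff_pow_eq_one.mp hγ
    refine isOfFinOrder_iff_pow_eq_one.mpr ⟨n, hn, ?_⟩
    show (isCorrSys_al N ℓ _ _ (al_bezout h.1 h.2)).coc γ () ^ n = 1
    rw [← coc_pow_unit, hγn, IsCorrSys.coc_one]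
  · rw [alOp, dif_neg h]
    rfl

/-- `alOp` preserves `Hp`. -/
theorem alOp_mem_Hp {m : ℕ} {ψ : Additive (Gamma0 (N * ℓ)) →+ ZMod m} (hψ : ψ ∈ Hp (N * ℓ) m) :
    alOp N ℓ (ZMod m) ψ ∈ Hp (N * ℓ) m :=
  ⟨isParabolicHom_alOp N ℓ hψ.1, alOp_apply_eq_zero_of_isOfFinOrder N ℓ hψ.2⟩

/-- **Root data under Atkin–Lehner**, canonical form. -/
theorem rootQ_alOp (hℓ : ℓ.Prime) (hℓN : ¬ ℓ ∣ N) {m : ℕ}
    (ψ : Additive (Gamma0 (N * ℓ)) →+ ZMod m) (C : MvPolynomial ((N * ℓ).divisors) Kbar)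
    (h : RootQ (N * ℓ) m ψ C) :
    RootQ (N * ℓ) m (alOp N ℓ (ZMod m) ψ) (swapRen N ℓ C) := by
  rw [alOp_eq N ℓ hℓ hℓN]
  exact rootQ_swapRen N ℓ hℓ _ _ (al_bezout hℓ hℓN) ψ C h

end Fermat.Agent.S35.H79
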