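/-
S35-ALG, backup of (AJ-β) by the Atkin–Lehner route (helper79), part 2: the divisor side and
the statements.

For `ℓ ∤ N` prime let `w = alAlgHom` be the Atkin–Lehner involution of `F_{Nℓ}` over `ℚ̄`
(`w (j_e) = j_{swap e}`, landed as `S29.H64.exists_atkinLehner_equiv`), `w_* = pushPic w` the
induced automorphism of `J₀(N ℓ)(ℚ̄)` and `alOp` the Atkin–Lehner operator on `Hom(Γ₀(N ℓ), A)`
(`ALChar.lean`).

* `rel_alOp`   (AJ-w) : `Rel (N ℓ) m ψ x → Rel (N ℓ) m (alOp ψ) (w_* x)`;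
* `degBeta_eq_degAlpha_comp`, `degAlpha_eq_degBeta_comp` : `β_* = α_* ∘ w_*`, `α_* = β_* ∘ w_*`;
* `rel_degBeta_of_rel_degAlpha` : (AJ-β) from (AJ-α), with the transfer `tr_β := tr_α ∘ alOp`;
* `rel_degAlpha_of_rel_degBeta` : the converse.
-/
import Mathlib
import Fermat.Agent.S35.H79.ALChar
import Fermat.Agent.S35.H60.DegDefs
import Fermat.Agent.S42.H13.HeckeDiv

set_option autoImplicit false
set_option linter.unusedSectionVars false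
set_option linter.style.haveILetI false

open UpperHalfPlane CongruenceSubgroup ModularCurve ModularCurve.Period AlgebraicCurve
open scoped MatrixGroups

noncomputable section

namespace Fermat.Agent.S35.H79

open Fermat.Agent.S24 Fermat.Agent.S42.H96
open Fermat.Agent.S29.H64 (swapRen swapDiv exists_atkinLehner_equiv evF_swapRen_eq_zero_iff)
open Fermat.Agent.S29.H60 (isIntegral_FF finiteAlong_FF normFormulaAlong_FF inertiaDegAlong_FF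
  pushforwardAlong_comp)
open Fermat.Agent.S35.H60 (pushPic pushDegZero pushPic_mk coe_pushDegZero degAlpha degBeta)

attribute [local instance] Fermat.Agent.S37.H75.hasPrincipalDivisors_FF

/-! ### The norm along an isomorphism -/

/-- The norm along a bijective embedding is the inverse map. -/
theorem norm_along_of_rightInverse {K F F' : Type*} [Field K] [Field F] [Field F'] [Algebra K F]
    [Algebra K F'] (w : F →ₐ[K] F') (w' : F' → F) (h : ∀ f, w (w' f) = f) (f : F') :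
    (letI := algebraAlong w; Algebra.norm F f) = w' f := by
  letI := algebraAlong w
  have hsurj : Function.Surjective (algebraMap F F') := fun g => ⟨w' g, h g⟩
  have hinj : Function.Injective (algebraMap F F') := (algebraMap F F').injective
  have hfr : Module.finrank F F' = 1 := by
    have e : F ≃ₗ[F] F' := LinearEquiv.ofBijective (Algebra.linearMap F F') ⟨hinj, hsurj⟩
    rw [← e.finrank_eq, Module.finrank_self]
  have hf : f = algebraMap F F' (w' f) := (h f).symm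
  calc Algebra.norm F f = Algebra.norm F (algebraMap F F' (w' f)) := by rw [← hf]
    _ = w' f := by rw [Algebra.norm_algebraMap, hfr, pow_one]

variable (N ℓ : ℕ) [NeZero N] [NeZero ℓ]

/-! ### The Atkin–Lehner involution as a `ℚ̄`-algebra endomorphism -/

theorem exists_alAlgHom (hℓ : ℓ.Prime) (hℓN : ¬ ℓ ∣ N) :
    ∃ w : FF (N * ℓ) →ₐ[Kbar] FF (N * ℓ),
      (∀ f, w (w f) = f) ∧
      (∀ P : MvPolynomial ((N * ℓ).divisors) Kbar,
        w (evF (N * ℓ) P) = evF (N * ℓ) (swapRen N ℓ P)) ∧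
      (∀ c : FF N, w (heckeAlphaBar Kbar N ℓ c) = heckeBetaBar Kbar N ℓ c) ∧
      (∀ c : FF N, w (heckeBetaBar Kbar N ℓ c) = heckeAlphaBar Kbar N ℓ c) := by
  obtain ⟨w, hww, hK, hj, hα, hβ⟩ := exists_atkinLehner_equiv N ℓ hℓ hℓN
  let wA : FF (N * ℓ) →ₐ[Kbar] FF (N * ℓ) :=
    { (w : FF (N * ℓ) →+* FF (N * ℓ)) with commutes' := hK }
  refine ⟨wA, hww, ?_, hα, hβ⟩
  intro P
  have key : wA.comp (evF (N * ℓ)) = (evF (N * ℓ)).comp (swapRen N ℓ) := by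
    apply MvPolynomial.algHom_ext
    intro e
    have hX : ∀ e : (N * ℓ).divisors, evF (N * ℓ) (MvPolynomial.X e) = jF (N * ℓ) e :=
      fun e => by simp [evF]
    show w (evF (N * ℓ) (MvPolynomial.X e)) = evF (N * ℓ) (swapRen N ℓ (MvPolynomial.X e))
    rw [swapRen, MvPolynomial.rename_X, hX, hX, hj]
  exact AlgHom.congr_fun key P

/-- The Atkin–Lehner involution `w` of `F_{Nℓ}` as a `ℚ̄`-algebra endomorphism. -/
def alAlgHom (hℓ : ℓ.Prime) (hℓN : ¬ ℓ ∣ N) : FF (N * ℓ) →ₐ[Kbar] FF (N * ℓ) :=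
  (exists_alAlgHom N ℓ hℓ hℓN).choose

theorem alAlgHom_alAlgHom (hℓ : ℓ.Prime) (hℓN : ¬ ℓ ∣ N) (f : FF (N * ℓ)) :
    alAlgHom N ℓ hℓ hℓN (alAlgHom N ℓ hℓ hℓN f) = f :=
  (exists_alAlgHom N ℓ hℓ hℓN).choose_spec.1 f

theorem alAlgHom_evF (hℓ : ℓ.Prime) (hℓN : ¬ ℓ ∣ N) (P : MvPolynomial ((N * ℓ).divisors) Kbar) :
    alAlgHom N ℓ hℓ hℓN (evF (N * ℓ) P) = evF (N * ℓ) (swapRen N ℓ P) :=
  (exists_alAlgHom N ℓ hℓ hℓN).choose_spec.2.1 P

theorem alAlgHom_alpha (hℓ : ℓ.Prime) (hℓN : ¬ ℓ ∣ N) (c : FF N) :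
    alAlgHom N ℓ hℓ hℓN (heckeAlphaBar Kbar N ℓ c) = heckeBetaBar Kbar N ℓ c :=
  (exists_alAlgHom N ℓ hℓ hℓN).choose_spec.2.2.1 c

theorem alAlgHom_beta (hℓ : ℓ.Prime) (hℓN : ¬ ℓ ∣ N) (c : FF N) :
    alAlgHom N ℓ hℓ hℓN (heckeBetaBar Kbar N ℓ c) = heckeAlphaBar Kbar N ℓ c :=
  (exists_alAlgHom N ℓ hℓ hℓN).choose_spec.2.2.2 c

/-- `w_*` on `J₀(N ℓ)(ℚ̄)`. -/
def alPic (hℓ : ℓ.Prime) (hℓN : ¬ ℓ ∣ N) : JZero (N * ℓ) →+ JZero (N * ℓ) :=
  pushPic (alAlgHom N ℓ hℓ hℓN)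

/-! ### The divisor side -/

/-- If `div (evF C) = m • D` then `div (evF (swapRen C)) = m • w_* D`. -/
theorem ord_swapRen (hℓ : ℓ.Prime) (hℓN : ¬ ℓ ∣ N) (m : ℤ)
    (C : MvPolynomial ((N * ℓ).divisors) Kbar) (hC : evF (N * ℓ) C ≠ 0)
    (D : Divisor Kbar (FF (N * ℓ)))
    (hord : ∀ v : Place Kbar (FF (N * ℓ)), v.ord (evF (N * ℓ) C) = m * D v)
    (v : Place Kbar (FF (N * ℓ))) :
    v.ord (evF (N * ℓ) (swapRen N ℓ C))
      = m * Divisor.pushforwardAlong (alAlgHom N ℓ hℓ hℓN) (isIntegral_FF _) D v := by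
  have h1 : ∀ u : Place Kbar (FF (N * ℓ)), (m • D) u = u.ord (evF (N * ℓ) C) := fun u => by
    rw [Finsupp.smul_apply, smul_eq_mul, hord u]
  have h2 := Fermat.Agent.S42.H13.pushforwardAlong_apply_eq_ord (alAlgHom N ℓ hℓ hℓN)
    (isIntegral_FF _) (finiteAlong_FF _) (normFormulaAlong_FF _) hC h1 v
  rw [norm_along_of_rightInverse (alAlgHom N ℓ hℓ hℓN) (alAlgHom N ℓ hℓ hℓN)
    (alAlgHom_alAlgHom N ℓ hℓ hℓN), alAlgHom_evF, map_zsmul, Finsupp.smul_apply, smul_eq_mul]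
    at h2
  exact h2.symm

/-! ### (AJ-w) -/

/-- **(AJ-w)**: the Kummer relation is compatible with the Atkin–Lehner involution. -/
theorem rel_alOp (hℓ : ℓ.Prime) (hℓN : ¬ ℓ ∣ N) {m : ℕ}
    (ψ : Additive (Gamma0 (N * ℓ)) →+ ZMod m) (x : JZero (N * ℓ))
    (h : Rel (N * ℓ) m ψ x) :
    Rel (N * ℓ) m (alOp N ℓ (ZMod m) ψ) (alPic N ℓ hℓ hℓN x) := by
  obtain ⟨C, D, hC, hord, rfl, hroot⟩ := h
  refine ⟨swapRen N ℓ C, pushDegZero (alAlgHom N ℓ hℓ hℓN) D, ?_, ?_, rfl,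
    rootQ_alOp N ℓ hℓ hℓN ψ C hroot⟩
  · rw [Ne, evF_swapRen_eq_zero_iff N ℓ hℓ hℓN]
    exact hC
  · intro v
    rw [coe_pushDegZero]
    exact ord_swapRen N ℓ hℓ hℓN (m : ℤ) C hC D hord v

/-! ### `β_* = α_* ∘ w_*` -/

theorem degBeta_eq_degAlpha_comp (hℓ : ℓ.Prime) (hℓN : ¬ ℓ ∣ N) (x : JZero (N * ℓ)) :
    degBeta N ℓ x = degAlpha N ℓ (alPic N ℓ hℓ hℓN x) := by
  obtain ⟨D, rfl⟩ := Pic0.mk_surjective x
  show Pic0.mk (pushDegZero (heckeBetaBar Kbar N ℓ) D)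
    = Pic0.mk (pushDegZero (heckeAlphaBar Kbar N ℓ) (pushDegZero (alAlgHom N ℓ hℓ hℓN) D))
  refine congrArg Pic0.mk (Subtype.ext ?_)
  rw [coe_pushDegZero, coe_pushDegZero, coe_pushDegZero]
  exact pushforwardAlong_comp (heckeAlphaBar Kbar N ℓ) (alAlgHom N ℓ hℓ hℓN)
    (heckeBetaBar Kbar N ℓ) (isIntegral_FF _) (isIntegral_FF _) (isIntegral_FF _)
    (fun c => (alAlgHom_alpha N ℓ hℓ hℓN c).symm) (inertiaDegAlong_FF _) (inertiaDegAlong_FF _)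
    (inertiaDegAlong_FF _) (D : Divisor Kbar (FF (N * ℓ)))

theorem degAlpha_eq_degBeta_comp (hℓ : ℓ.Prime) (hℓN : ¬ ℓ ∣ N) (x : JZero (N * ℓ)) :
    degAlpha N ℓ x = degBeta N ℓ (alPic N ℓ hℓ hℓN x) := by
  obtain ⟨D, rfl⟩ := Pic0.mk_surjective x
  show Pic0.mk (pushDegZero (heckeAlphaBar Kbar N ℓ) D)
    = Pic0.mk (pushDegZero (heckeBetaBar Kbar N ℓ) (pushDegZero (alAlgHom N ℓ hℓ hℓN) D))
  refine congrArg Pic0.mk (Subtype.ext ?_)
  rw [coe_pushDegZero, coe_pushDegZero, coe_pushDegZero]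
  exact pushforwardAlong_comp (heckeBetaBar Kbar N ℓ) (alAlgHom N ℓ hℓ hℓN)
    (heckeAlphaBar Kbar N ℓ) (isIntegral_FF _) (isIntegral_FF _) (isIntegral_FF _)
    (fun c => (alAlgHom_beta N ℓ hℓ hℓN c).symm) (inertiaDegAlong_FF _) (inertiaDegAlong_FF _)
    (inertiaDegAlong_FF _) (D : Divisor Kbar (FF (N * ℓ)))

/-- `w_*` is an involution of `J₀(N ℓ)(ℚ̄)`. -/
theorem alPic_alPic (hℓ : ℓ.Prime) (hℓN : ¬ ℓ ∣ N) (x : JZero (N * ℓ)) :
    alPic N ℓ hℓ hℓN (alPic N ℓ hℓ hℓN x) = x := by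
  obtain ⟨D, rfl⟩ := Pic0.mk_surjective x
  show Pic0.mk (pushDegZero (alAlgHom N ℓ hℓ hℓN) (pushDegZero (alAlgHom N ℓ hℓ hℓN) D))
    = Pic0.mk D
  refine congrArg Pic0.mk (Subtype.ext ?_)
  rw [coe_pushDegZero, coe_pushDegZero]
  have hid : ∀ c : FF (N * ℓ), (AlgHom.id Kbar (FF (N * ℓ))) c
      = alAlgHom N ℓ hℓ hℓN (alAlgHom N ℓ hℓ hℓN c) :=
    fun c => (alAlgHom_alAlgHom N ℓ hℓ hℓN c).symm
  rw [← pushforwardAlong_comp (alAlgHom N ℓ hℓ hℓN) (alAlgHom N ℓ hℓ hℓN)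
    (AlgHom.id Kbar (FF (N * ℓ))) (isIntegral_FF _) (isIntegral_FF _) (isIntegral_FF _)
    hid (inertiaDegAlong_FF _) (inertiaDegAlong_FF _) (inertiaDegAlong_FF _)
    (D : Divisor Kbar (FF (N * ℓ)))]
  induction (D : Divisor Kbar (FF (N * ℓ))) using Finsupp.induction with
  | zero => simp
  | single_add u n E _ _ ih =>
    rw [map_add, ih, Divisor.pushforwardAlong_single, inertiaDegAlong_FF]
    congr 1
    have : u.restrictAlong (AlgHom.id Kbar (FF (N * ℓ))) (isIntegral_FF _) = u := by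
      apply Place.ext
      ext f
      rfl
    rw [this]
    simp

/-! ### (AJ-β) from (AJ-α) and conversely -/

/-- **(AJ-β) from (AJ-α)**: if `tr` is a transfer for which the Kummer relation is compatible
with `α_*`, then it is compatible with `β_*` for the transfer `tr ∘ alOp`. -/
theorem rel_degBeta_of_rel_degAlpha (hℓ : ℓ.Prime) (hℓN : ¬ ℓ ∣ N) {m : ℕ}
    (tr : (Additive (Gamma0 (N * ℓ)) →+ ZMod m) → (Additive (Gamma0 N) →+ ZMod m))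
    (hα : ∀ (ψ : Additive (Gamma0 (N * ℓ)) →+ ZMod m) (x : JZero (N * ℓ)),
      Rel (N * ℓ) m ψ x → Rel N m (tr ψ) (degAlpha N ℓ x))
    (ψ : Additive (Gamma0 (N * ℓ)) →+ ZMod m) (x : JZero (N * ℓ)) (h : Rel (N * ℓ) m ψ x) :
    Rel N m (tr (alOp N ℓ (ZMod m) ψ)) (degBeta N ℓ x) := by
  rw [degBeta_eq_degAlpha_comp N ℓ hℓ hℓN]
  exact hα _ _ (rel_alOp N ℓ hℓ hℓN ψ x h)

/-- **(AJ-α) from (AJ-β)**. -/
theorem rel_degAlpha_of_rel_degBeta (hℓ : ℓ.Prime) (hℓN : ¬ ℓ ∣ N) {m : ℕ}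
    (tr : (Additive (Gamma0 (N * ℓ)) →+ ZMod m) → (Additive (Gamma0 N) →+ ZMod m))
    (hβ : ∀ (ψ : Additive (Gamma0 (N * ℓ)) →+ ZMod m) (x : JZero (N * ℓ)),
      Rel (N * ℓ) m ψ x → Rel N m (tr ψ) (degBeta N ℓ x))
    (ψ : Additive (Gamma0 (N * ℓ)) →+ ZMod m) (x : JZero (N * ℓ)) (h : Rel (N * ℓ) m ψ x) :
    Rel N m (tr (alOp N ℓ (ZMod m) ψ)) (degAlpha N ℓ x) := by
  rw [degAlpha_eq_degBeta_comp N ℓ hℓ hℓN]
  exact hβ _ _ (rel_alOp N ℓ hℓ hℓN ψ x h)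

end Fermat.Agent.S35.H79
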