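/-
S35-ALG, leaf (AJ-β) by the Atkin–Lehner route (helper79): push-forward compatibility of the
Kummer relation with the second degeneracy map `β_* = H60.degBeta N ℓ : J₀(Nℓ) → J₀(N)`:

  `ℓ` prime, `ℓ ∤ N`, `m ≠ 0`:   `Rel (N*ℓ) m ψ x  ⟹  Rel N m (trBeta N ℓ (ZMod m) ψ) (degBeta N ℓ x)`,

with the transfer `trBeta := trAlpha ∘ alOp` (helper28's transfer `trAlpha` of
`S35/H28/CosetAlpha.lean` after the Atkin–Lehner operator `alOp` of `ALChar.lean`).

Proof: `β_* = α_* ∘ w_*` (`ALPush.degBeta_eq_degAlpha_comp`), (AJ-w) (`ALPush.rel_alOp`) and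
helper28's landed (AJ-α) (`S35.H28.rel_degAlpha`).
-/
import Mathlib
import Fermat.Agent.S35.H79.ALPush
import Fermat.Agent.S35.H28.PushAlpha

set_option autoImplicit false
set_option linter.unusedSectionVars false

open CongruenceSubgroup ModularCurve ModularCurve.Period

noncomputable section

namespace Fermat.Agent.S35.H79

open Fermat.Agent.S42.H96
open Fermat.Agent.S35.H28 (trAlpha trAlpha_comp isParabolicHom_trAlpha rel_degAlpha)

variable (N ℓ : ℕ) [NeZero N] [NeZero ℓ]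

/-- **The transfer for `β`**: `Hom(Γ₀(Nℓ), A) → Hom(Γ₀(N), A)`, the transfer `trAlpha` after the
Atkin–Lehner operator. -/
def trBeta (A : Type*) [AddCommGroup A] :
    (Additive (Gamma0 (N * ℓ)) →+ A) →+ (Additive (Gamma0 N) →+ A) :=
  (trAlpha N ℓ A).comp (alOp N ℓ A)

theorem trBeta_apply (A : Type*) [AddCommGroup A] (ψ : Additive (Gamma0 (N * ℓ)) →+ A) :
    trBeta N ℓ A ψ = trAlpha N ℓ A (alOp N ℓ A ψ) := rfl

/-- Naturality of `trBeta` in the coefficient group. -/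
theorem trBeta_comp {A B : Type*} [AddCommGroup A] [AddCommGroup B] (f : A →+ B)
    (ψ : Additive (Gamma0 (N * ℓ)) →+ A) :
    trBeta N ℓ B (f.comp ψ) = f.comp (trBeta N ℓ A ψ) := by
  rw [trBeta_apply, trBeta_apply, alOp_comp, trAlpha_comp]

/-- `trBeta` of a parabolic homomorphism is parabolic. -/
theorem isParabolicHom_trBeta (A : Type*) [AddCommGroup A] (ψ : Additive (Gamma0 (N * ℓ)) →+ A)
    (hψ : IsParabolicHom (Gamma0 (N * ℓ)) ψ) : IsParabolicHom (Gamma0 N) (trBeta N ℓ A ψ) :=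
  isParabolicHom_trAlpha N ℓ A _ (isParabolicHom_alOp N ℓ hψ)

/-- **Leaf (AJ-β)**: push-forward of the Kummer relation along `β`. -/
theorem rel_degBeta (hℓ : ℓ.Prime) (hℓN : ¬ ℓ ∣ N) (m : ℕ) (hm : m ≠ 0)
    (ψ : Additive (Gamma0 (N * ℓ)) →+ ZMod m) (x : JZero (N * ℓ))
    (hx : Rel (N * ℓ) m ψ x) :
    Rel N m (trBeta N ℓ (ZMod m) ψ) (Fermat.Agent.S35.H60.degBeta N ℓ x) :=
  rel_degBeta_of_rel_degAlpha N ℓ hℓ hℓN (trAlpha N ℓ (ZMod m))
    (fun ψ x h => rel_degAlpha N ℓ hℓ hℓN m hm ψ x h) ψ x hx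

end Fermat.Agent.S35.H79
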